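/-
S26lib / Clear / Main  (helper5)  --  Project K (S26), cube kernel, step (M), brick (CLR)

**Clearing of vertical poles + Hartogs.**  `π : X ⟶ T` a good map (flat, surjective, irreducible
fibres, multiplicity one), `X`, `T` normal integral, `X` noetherian.  If a rational section
`G` of a coherent family `𝔪` has no poles along the prime divisors DOMINATING `T`, then after
multiplication by `π^* a` for a suitable `a ≠ 0` REGULAR AT `t₁`, the section `π^*a · G` is
regular at every point of `X` over a generisation of `t₁`.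

Proof: the prime divisors `P` of `X` with `π P ⤳ t₁` along which `G · 𝔪` has a pole are finitely many
and vertical, `P = π^* S` (`GoodMap.exists_pull_eq`); a non-zero element `a_P` of the prime of
`O_{T,t₁}` attached to `S ⤳ t₁` has `ord_P (π^* a_P) = ord_S a_P ≥ 1`; take `a = ∏ a_P ^ n_P` and
apply Hartogs (`mem_regAt_of_ordZ_nonneg`).
-/
import Mathlib
import Fermat.Agent.S26lib.Quad.RatWeil
import Fermat.Agent.S26lib.Prod.GoodMap

set_option autoImplicit false
set_option linter.unusedSectionVars false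
set_option linter.style.haveILetI false

noncomputable section

namespace Fermat.Agent.S26lib.Clear

open AlgebraicGeometry CategoryTheory TopologicalSpace IsLocalRing Fermat.Agent.S26lib.Weil
  Fermat.Agent.S26lib.FinMap Fermat.Agent.S26lib.Quad Fermat.Agent.S26lib.Prod

universe u

variable {X T : Scheme.{u}} [IsIntegral X] [IsIntegral T]

/-- the prime of `O_{T,t}` attached to a non-generic generisation is non-zero -/
theorem primeOf_ne_bot {t s : T} (h : s ⤳ t) (hs : s ≠ genericPoint T) :
    (Prod.primeOf h).asIdeal ≠ ⊥ := by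
  intro h0
  apply hs
  obtain ⟨𝔮₀, h𝔮₀⟩ := Prod.exists_genPt_eq (generic_specializes T t)
  have h1 : Prod.genPt t (Prod.primeOf h) ⤳ Prod.genPt t 𝔮₀ := by
    rw [Prod.genPt_specializes_iff]
    show (Prod.primeOf h).asIdeal ≤ 𝔮₀.asIdeal
    rw [h0]
    exact bot_le
  rw [Prod.genPt_primeOf, h𝔮₀] at h1
  exact (h1.antisymm (generic_specializes T s)).eq

/-- pull-backs of functions regular at `π z` are regular at `z` -/
theorem ffMap_mem_regAt (π : X ⟶ T) [IsDominant π] (z : X) {b : T.functionField}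
    (hb : b ∈ regAt T (π z)) : FinMap.ffMap π b ∈ regAt X z := by
  obtain ⟨c, rfl⟩ := hb
  exact ⟨π.stalkMap z c, toFF_stalkMap_ffMap π z c⟩

variable [IsNoetherian X] [IsLocallyNoetherian T]

/-- **(CLR) clearing of vertical poles + Hartogs** -/
theorem clear_vertical_poles
    (hnX : ∀ x : X, IsIntegrallyClosed (X.presheaf.stalk x))
    (hnT : ∀ t : T, IsIntegrallyClosed (T.presheaf.stalk t))
    (π : X ⟶ T) (hπ : GoodMap π) (𝔪 : RatFam X) (h𝔪 : 𝔪.IsCoherent) (G : X.functionFieldˣ)
    (t₁ : T)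
    (hhor : ∀ P : PrimeDiv X, π P.1 = genericPoint T → 0 ≤ ordZ P (G * 𝔪 P.1)) :
    haveI := hπ.isDominant
    ∃ a : T.functionFieldˣ, (a : T.functionField) ∈ regAt T t₁ ∧
      ∀ x : X, π x ⤳ t₁ →
        ((Units.map (FinMap.ffMap π : T.functionField →* X.functionField) a * G * 𝔪 x :
          X.functionFieldˣ) : X.functionField) ∈ regAt X x := by
  classical
  haveI := hπ.isDominant
  set τ : RatFam X := RatFam.const G * 𝔪 with hτ
  have hτc : τ.IsCoherent := (RatFam.isCoherent_const G).mul h𝔪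
  have hτw : ∀ P : PrimeDiv X, τ.weil P = ordZ P (G * 𝔪 P.1) := fun P => rfl
  have hfin : {P : PrimeDiv X | τ.weil P ≠ 0}.Finite := hτc.finite_weil_ne_zero
  set B : Finset (PrimeDiv X) :=
    hfin.toFinset.filter (fun P => τ.weil P < 0 ∧ π P.1 ⤳ t₁) with hB
  have hBmem : ∀ P, P ∈ B ↔ τ.weil P < 0 ∧ π P.1 ⤳ t₁ := by
    intro P
    rw [hB, Finset.mem_filter, Set.Finite.mem_toFinset]
    exact ⟨fun h => h.2, fun h => ⟨ne_of_lt h.1, h⟩⟩
  -- for each bad prime divisor a function on `T`, regular at `t₁`, vanishing along it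
  have key : ∀ P ∈ B, ∃ b : T.functionFieldˣ, (b : T.functionField) ∈ regAt T t₁ ∧
      1 ≤ ordZ P (Units.map (FinMap.ffMap π : T.functionField →* X.functionField) b) := by
    intro P hP
    obtain ⟨hneg, hspec⟩ := (hBmem P).1 hP
    have hver : π P.1 ≠ genericPoint T := fun h => by
      have := hhor P h
      rw [← hτw] at this
      omega
    obtain ⟨S, hS⟩ := hπ.exists_pull_eq hnT P hver
    have hS1 : S.1 = π P.1 := by rw [← hS, hπ.map_pull]
    have hSt : S.1 ⤳ t₁ := hS1 ▸ hspec
    have hSgen : S.1 ≠ genericPoint T := hS1 ▸ hver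
    obtain ⟨c, hcmem, hc0⟩ := Submodule.exists_mem_ne_zero_of_ne_bot (primeOf_ne_bot hSt hSgen)
    refine ⟨Units.mk0 (toFF T t₁ c) (toFF_ne_zero T hc0), ⟨c, rfl⟩, ?_⟩
    show 1 ≤ ordAt P (FinMap.ffMap π (toFF T t₁ c))
    rw [← hS, hπ.ordAt_pull S, ← toFF_spec T hSt c]
    have hne : T.presheaf.stalkSpecializes hSt c ≠ 0 := fun h0 =>
      toFF_ne_zero T hc0 (by rw [← toFF_spec T hSt c, h0, map_zero])
    have hpos := ordAt_toFF_pos S hne ((Prod.mem_primeOf_iff hSt c).1 hcmem)
    omega
  choose! b hbreg hbord using key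
  set n : PrimeDiv X → ℕ := fun P => (-τ.weil P).toNat with hn
  refine ⟨∏ P ∈ B, b P ^ n P, ?_, fun x hx => ?_⟩
  · rw [Units.coe_prod]
    refine Subring.prod_mem _ fun P hP => ?_
    rw [Units.val_pow_eq_pow_val]
    exact Subring.pow_mem _ (hbreg P hP) _
  · refine mem_regAt_of_ordZ_nonneg hnX x _ fun Q hQ => ?_
    have hQt : π Q.1 ⤳ t₁ := (hQ.map π.continuous).trans hx
    have h2 : ordZ Q (G * 𝔪 x) = τ.weil Q := by
      rw [ordZ_mul, h𝔪.ordZ_spec hQ, hτw, ordZ_mul]
      rfl
    rw [mul_assoc, ordZ_mul, h2, map_prod, ordZ_prod]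
    have hterm : ∀ P ∈ B, 0 ≤ ordZ Q
        (Units.map (FinMap.ffMap π : T.functionField →* X.functionField) (b P ^ n P)) := by
      intro P hP
      rw [map_pow, ordZ_pow]
      have h0 : 0 ≤ ordZ Q
          (Units.map (FinMap.ffMap π : T.functionField →* X.functionField) (b P)) := by
        apply ordZ_nonneg_of_mem_regAt (x := Q.1) specializes_rfl
        exact ffMap_mem_regAt π Q.1 (regAt_mono hQt (hbreg P hP))
      positivity
    by_cases hneg : τ.weil Q < 0
    · have hQB : Q ∈ B := (hBmem Q).2 ⟨hneg, hQt⟩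
      have h3 := Finset.single_le_sum hterm hQB
      have h4 : (n Q : ℤ) ≤ ordZ Q
          (Units.map (FinMap.ffMap π : T.functionField →* X.functionField) (b Q ^ n Q)) := by
        rw [map_pow, ordZ_pow]
        have := hbord Q hQB
        nlinarith [Int.natCast_nonneg (n Q)]
      have h5 : (n Q : ℤ) = -τ.weil Q := Int.toNat_of_nonneg (by omega)
      omega
    · have := Finset.sum_nonneg hterm
      omega

end Fermat.Agent.S26lib.Clear
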